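/-
T16 / LB-H1 HEDGE (helper49): cohomological Hecke operators on `Hom(Γ₀(N), A)` from the prelude
coset relation `heckeRep_mul`.  T-part.
-/
import Mathlib
import Fermat.Prelude.Sol.S_ModularForm_heckeT_slash_eq_self_of_mem_Gamma0

set_option autoImplicit false

open scoped MatrixGroups
open CongruenceSubgroup Matrix Matrix.SpecialLinearGroup
open P2MW.S_ModularForm_heckeT_slash_eq_self_of_mem_Gamma0.ModularForm.HeckeSlashInvariance

namespace Fermat.Agent.S16_helper49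

variable {N : ℕ} {ℓ : ℕ} [Fact ℓ.Prime]

theorem dvd_of_mem_Gamma0 (g : Gamma0 N) : (N : ℤ) ∣ (g : SL(2, ℤ)) 1 0 :=
  (ZMod.intCast_zmod_eq_zero_iff_dvd _ _).mp (Gamma0_mem.mp g.2)

theorem mem_Gamma0_of_dvd {g : SL(2, ℤ)} (h : (N : ℤ) ∣ g 1 0) : g ∈ Gamma0 N :=
  Gamma0_mem.mpr ((ZMod.intCast_zmod_eq_zero_iff_dvd _ _).mpr h)

/-- The element `g'` with `α_x g = g' α_{x·g}`. -/
noncomputable def cT (hℓN : ¬ ℓ ∣ N) (g : Gamma0 N) (x : OnePoint (ZMod ℓ)) : Gamma0 N :=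
  ⟨(heckeRep_mul hℓN (g : SL(2, ℤ)) (dvd_of_mem_Gamma0 g) x).choose,
    mem_Gamma0_of_dvd (heckeRep_mul hℓN (g : SL(2, ℤ)) (dvd_of_mem_Gamma0 g) x).choose_spec.1⟩

theorem cT_rel (hℓN : ¬ ℓ ∣ N) (g : Gamma0 N) (x : OnePoint (ZMod ℓ)) :
    heckeRep ℓ x * mapGL ℝ (g : SL(2, ℤ))
      = mapGL ℝ (cT hℓN g x : SL(2, ℤ)) * heckeRep ℓ (redMatrix ℓ (g : SL(2, ℤ)) • x) :=
  (heckeRep_mul hℓN (g : SL(2, ℤ)) (dvd_of_mem_Gamma0 g) x).choose_spec.2

/-- `redMatrix` is an anti-homomorphism. -/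
theorem redMatrix_mul (g h : SL(2, ℤ)) :
    redMatrix ℓ (g * h) = redMatrix ℓ h * redMatrix ℓ g := by
  apply Matrix.GeneralLinearGroup.ext
  intro i j
  rw [Matrix.GeneralLinearGroup.coe_mul, Matrix.mul_apply, Fin.sum_univ_two]
  fin_cases i <;> fin_cases j <;>
    simp [Matrix.mul_apply, Fin.sum_univ_two] <;> ring

theorem redMatrix_one : redMatrix ℓ (1 : SL(2, ℤ)) = 1 := by
  apply Matrix.GeneralLinearGroup.ext
  intro i j
  fin_cases i <;> fin_cases j <;> simp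

/-- The cocycle relation. -/
theorem cT_mul (hℓN : ¬ ℓ ∣ N) (g h : Gamma0 N) (x : OnePoint (ZMod ℓ)) :
    cT hℓN (g * h) x = cT hℓN g x * cT hℓN h (redMatrix ℓ (g : SL(2, ℤ)) • x) := by
  have h1 := cT_rel hℓN (g * h) x
  have h2 := cT_rel hℓN g x
  have h3 := cT_rel hℓN h (redMatrix ℓ (g : SL(2, ℤ)) • x)
  have hred : redMatrix ℓ ((g * h : Gamma0 N) : SL(2, ℤ)) • x
      = redMatrix ℓ (h : SL(2, ℤ)) • redMatrix ℓ (g : SL(2, ℤ)) • x := by
    rw [Subgroup.coe_mul, redMatrix_mul, mul_smul]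
  rw [hred, Subgroup.coe_mul, map_mul, ← mul_assoc, h2, mul_assoc, h3, ← mul_assoc] at h1
  have h4 := mul_right_cancel h1
  rw [← map_mul] at h4
  have h5 := mapGL_injective (R := ℤ) (S := ℝ) h4
  apply Subtype.ext
  rw [Subgroup.coe_mul]
  exact h5.symm

/-- The value of the cohomological `T_ℓ`. -/
noncomputable def cohTFun (hℓN : ¬ ℓ ∣ N) {A : Type*} [AddCommGroup A]
    (φ : Additive (Gamma0 N) →+ A) : Additive (Gamma0 N) →+ A :=
  AddMonoidHom.mk' (fun g => ∑ x : OnePoint (ZMod ℓ), φ (Additive.ofMul (cT hℓN (Additive.toMul g) x)))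
    (by
      intro g h
      show ∑ x : OnePoint (ZMod ℓ), φ (Additive.ofMul (cT hℓN (Additive.toMul g * Additive.toMul h) x))
        = _
      simp_rw [cT_mul, ofMul_mul, map_add]
      rw [Finset.sum_add_distrib]
      congr 1
      exact Equiv.sum_comp (MulAction.toPerm (redMatrix ℓ ((Additive.toMul g : Gamma0 N) : SL(2, ℤ))))
        (fun x => φ (Additive.ofMul (cT hℓN (Additive.toMul h) x))))

/-- The cohomological Hecke operator `T_ℓ` (`ℓ ∤ N`) on `Hom(Γ₀(N), A)`. -/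
noncomputable def cohT (hℓN : ¬ ℓ ∣ N) (A : Type*) [AddCommGroup A] :
    (Additive (Gamma0 N) →+ A) →+ (Additive (Gamma0 N) →+ A) where
  toFun := cohTFun hℓN
  map_zero' := by
    refine AddMonoidHom.ext fun g => ?_
    show ∑ x : OnePoint (ZMod ℓ), (0 : Additive (Gamma0 N) →+ A) _ = 0
    simp
  map_add' φ ψ := by
    refine AddMonoidHom.ext fun g => ?_
    show ∑ x : OnePoint (ZMod ℓ), (φ + ψ) _ = (∑ x : OnePoint (ZMod ℓ), φ _) + ∑ x : OnePoint (ZMod ℓ), ψ _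
    simp [Finset.sum_add_distrib]

theorem cohT_apply (hℓN : ¬ ℓ ∣ N) {A : Type*} [AddCommGroup A] (φ : Additive (Gamma0 N) →+ A)
    (g : Gamma0 N) :
    cohT hℓN A φ (Additive.ofMul g) = ∑ x : OnePoint (ZMod ℓ), φ (Additive.ofMul (cT hℓN g x)) := rfl

theorem cohT_comp (hℓN : ¬ ℓ ∣ N) {A B : Type*} [AddCommGroup A] [AddCommGroup B] (f : A →+ B)
    (φ : Additive (Gamma0 N) →+ A) :
    cohT hℓN B (f.comp φ) = f.comp (cohT hℓN A φ) := by
  refine AddMonoidHom.ext fun g => ?_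
  obtain ⟨g, rfl⟩ : ∃ g' : Gamma0 N, Additive.ofMul g' = g := ⟨Additive.toMul g, rfl⟩
  rw [cohT_apply, AddMonoidHom.comp_apply, cohT_apply, map_sum]
  rfl

end Fermat.Agent.S16_helper49
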