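/-
T16 / LB-H1 HEDGE (helper49): U-part + `cohGen` + the apply lemmas in the shape fixed by the
LB lead (board 1072).
-/
import Fermat.Agent.S16_helper49.HeckeHom

set_option autoImplicit false

open scoped MatrixGroups
open CongruenceSubgroup Matrix Matrix.SpecialLinearGroup
open P2MW.S_ModularForm_heckeT_slash_eq_self_of_mem_Gamma0.ModularForm.HeckeSlashInvariance

namespace Fermat.Agent.S16_helper49

variable {N : ℕ} {ℓ : ℕ} [NeZero ℓ]

theorem dvd_of_dvd_of_mem (hℓN : ℓ ∣ N) (g : Gamma0 N) : (ℓ : ℤ) ∣ (g : SL(2, ℤ)) 1 0 :=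
  (Int.natCast_dvd_natCast.mpr hℓN).trans (dvd_of_mem_Gamma0 g)

theorem cast_eq_zero_of_mem (hℓN : ℓ ∣ N) (g : Gamma0 N) :
    ((((g : SL(2, ℤ)) 1 0 : ℤ)) : ZMod ℓ) = 0 :=
  (ZMod.intCast_zmod_eq_zero_iff_dvd _ _).mpr (dvd_of_dvd_of_mem hℓN g)

/-- The permutation `x ↦ x·g` of `ZMod ℓ` (prelude `affinePerm`). -/
noncomputable def sigU (hℓN : ℓ ∣ N) (g : Gamma0 N) : Equiv.Perm (ZMod ℓ) :=
  affinePerm (g : SL(2, ℤ)) (cast_eq_zero_of_mem hℓN g)

/-- The element `g'` with `α_x g = g' α_{x·g}` (`ℓ ∣ N`). -/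
noncomputable def cU (hℓN : ℓ ∣ N) (g : Gamma0 N) (x : ZMod ℓ) : Gamma0 N :=
  ⟨(heckeMatrix_mul_of_dvd (g : SL(2, ℤ)) (dvd_of_dvd_of_mem hℓN g) x).choose,
    mem_Gamma0_of_dvd (by
      rw [(heckeMatrix_mul_of_dvd (g : SL(2, ℤ)) (dvd_of_dvd_of_mem hℓN g) x).choose_spec.1]
      exact dvd_mul_of_dvd_right (dvd_of_mem_Gamma0 g) _)⟩

theorem cU_rel (hℓN : ℓ ∣ N) (g : Gamma0 N) (x : ZMod ℓ) :
    ModularForm.heckeMatrix ℓ x.val * mapGL ℝ (g : SL(2, ℤ))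
      = mapGL ℝ (cU hℓN g x : SL(2, ℤ)) * ModularForm.heckeMatrix ℓ (sigU hℓN g x).val :=
  (heckeMatrix_mul_of_dvd (g : SL(2, ℤ)) (dvd_of_dvd_of_mem hℓN g) x).choose_spec.2

theorem sigU_mul (hℓN : ℓ ∣ N) (g h : Gamma0 N) (x : ZMod ℓ) :
    sigU hℓN (g * h) x = sigU hℓN h (sigU hℓN g x) := by
  unfold sigU
  rw [affinePerm_apply, affinePerm_apply, affinePerm_apply]
  have hg := cast_eq_zero_of_mem hℓN g
  have hu := unit_of_apply_one_zero_eq_zero (g : SL(2, ℤ)) hg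
  have key : ∀ (i j : Fin 2), (((g * h : Gamma0 N) : SL(2, ℤ)) i j : ℤ)
      = (g : SL(2, ℤ)) i 0 * (h : SL(2, ℤ)) 0 j + (g : SL(2, ℤ)) i 1 * (h : SL(2, ℤ)) 1 j := by
    intro i j
    have : ((((g * h : Gamma0 N) : SL(2, ℤ)) : Matrix (Fin 2) (Fin 2) ℤ))
        = ((g : SL(2, ℤ)) : Matrix (Fin 2) (Fin 2) ℤ) * ((h : SL(2, ℤ)) : Matrix (Fin 2) (Fin 2) ℤ) := by
      simp
    show ((((g * h : Gamma0 N) : SL(2, ℤ)) : Matrix (Fin 2) (Fin 2) ℤ) i j) = _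
    rw [this, Matrix.mul_apply, Fin.sum_univ_two]
  have e11 := key 1 1
  have e01 := key 0 1
  rw [e11, e01]
  push_cast
  rw [hg]
  linear_combination ((((h : SL(2, ℤ)) 1 1 : ℤ) : ZMod ℓ) * (((h : SL(2, ℤ)) 0 1 : ℤ) : ZMod ℓ)) * hu

theorem cU_mul (hℓN : ℓ ∣ N) (g h : Gamma0 N) (x : ZMod ℓ) :
    cU hℓN (g * h) x = cU hℓN g x * cU hℓN h (sigU hℓN g x) := by
  have h1 := cU_rel hℓN (g * h) x
  have h2 := cU_rel hℓN g x
  have h3 := cU_rel hℓN h (sigU hℓN g x)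
  rw [sigU_mul, Subgroup.coe_mul, map_mul, ← mul_assoc, h2, mul_assoc, h3, ← mul_assoc] at h1
  have h4 := mul_right_cancel h1
  rw [← map_mul] at h4
  have h5 := mapGL_injective (R := ℤ) (S := ℝ) h4
  apply Subtype.ext
  rw [Subgroup.coe_mul]
  exact h5.symm

/-- The value of the cohomological `U_ℓ`. -/
noncomputable def cohUFun (hℓN : ℓ ∣ N) {A : Type*} [AddCommGroup A]
    (φ : Additive (Gamma0 N) →+ A) : Additive (Gamma0 N) →+ A :=
  AddMonoidHom.mk' (fun g => ∑ x : ZMod ℓ, φ (Additive.ofMul (cU hℓN (Additive.toMul g) x)))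
    (by
      intro g h
      show ∑ x : ZMod ℓ, φ (Additive.ofMul (cU hℓN (Additive.toMul g * Additive.toMul h) x)) = _
      simp_rw [cU_mul, ofMul_mul, map_add]
      rw [Finset.sum_add_distrib]
      congr 1
      exact Equiv.sum_comp (sigU hℓN (Additive.toMul g))
        (fun x => φ (Additive.ofMul (cU hℓN (Additive.toMul h) x))))

/-- The cohomological Hecke operator `U_ℓ` (`ℓ ∣ N`) on `Hom(Γ₀(N), A)`. -/
noncomputable def cohU (hℓN : ℓ ∣ N) (A : Type*) [AddCommGroup A] :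
    (Additive (Gamma0 N) →+ A) →+ (Additive (Gamma0 N) →+ A) where
  toFun := cohUFun hℓN
  map_zero' := by
    refine AddMonoidHom.ext fun g => ?_
    show ∑ x : ZMod ℓ, (0 : Additive (Gamma0 N) →+ A) _ = 0
    simp
  map_add' φ ψ := by
    refine AddMonoidHom.ext fun g => ?_
    show ∑ x : ZMod ℓ, (φ + ψ) _ = (∑ x : ZMod ℓ, φ _) + ∑ x : ZMod ℓ, ψ _
    simp [Finset.sum_add_distrib]

theorem cohU_apply (hℓN : ℓ ∣ N) {A : Type*} [AddCommGroup A] (φ : Additive (Gamma0 N) →+ A)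
    (g : Gamma0 N) :
    cohU hℓN A φ (Additive.ofMul g) = ∑ x : ZMod ℓ, φ (Additive.ofMul (cU hℓN g x)) := rfl

theorem cohU_comp (hℓN : ℓ ∣ N) {A B : Type*} [AddCommGroup A] [AddCommGroup B] (f : A →+ B)
    (φ : Additive (Gamma0 N) →+ A) :
    cohU hℓN B (f.comp φ) = f.comp (cohU hℓN A φ) := by
  refine AddMonoidHom.ext fun g => ?_
  obtain ⟨g, rfl⟩ : ∃ g' : Gamma0 N, Additive.ofMul g' = g := ⟨Additive.toMul g, rfl⟩
  rw [cohU_apply, AddMonoidHom.comp_apply, cohU_apply, map_sum]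
  rfl

/-! ### `cohGen` in the shape fixed by the LB lead (board 1072) -/

section Gen

variable (N : ℕ) [NeZero N]

/-- local instance (Prop-valued class, harmless for consumers). -/
local instance factPrimeOfPrimes' (l : Nat.Primes) : Fact (l : ℕ).Prime := ⟨l.2⟩

/-- The cohomological Hecke operator attached to the prime `l`: `U`-type if `l ∣ N`,
`T`-type otherwise (same dichotomy as the prelude `heckeFormsGen`). -/
noncomputable def cohGen (A : Type*) [AddCommGroup A] (l : Nat.Primes) :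
    (Additive (Gamma0 N) →+ A) →+ (Additive (Gamma0 N) →+ A) :=
  if h : (l : ℕ) ∣ N then cohU h A else cohT h A

theorem cohGen_of_dvd (A : Type*) [AddCommGroup A] (l : Nat.Primes) (h : (l : ℕ) ∣ N) :
    cohGen N A l = cohU h A := dif_pos h

theorem cohGen_of_not_dvd (A : Type*) [AddCommGroup A] (l : Nat.Primes) (h : ¬ (l : ℕ) ∣ N) :
    cohGen N A l = cohT h A := dif_neg h

theorem cohGen_comp {A B : Type*} [AddCommGroup A] [AddCommGroup B] (g : A →+ B)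
    (l : Nat.Primes) (φ : Additive (Gamma0 N) →+ A) :
    cohGen N B l (g.comp φ) = g.comp (cohGen N A l φ) := by
  by_cases h : (l : ℕ) ∣ N
  · rw [cohGen_of_dvd N A l h, cohGen_of_dvd N B l h, cohU_comp]
  · rw [cohGen_of_not_dvd N A l h, cohGen_of_not_dvd N B l h, cohT_comp]

theorem cohGen_apply_of_not_dvd (l : Nat.Primes) (h : ¬ (l : ℕ) ∣ N) (γ : Gamma0 N) :
    ∃ (σ : Equiv.Perm (OnePoint (ZMod l))) (t : OnePoint (ZMod l) → Gamma0 N),
      (∀ x, heckeRep l x * mapGL ℝ (γ : SL(2, ℤ))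
        = mapGL ℝ (t x : SL(2, ℤ)) * heckeRep l (σ x)) ∧
      ∀ (A : Type) [AddCommGroup A] (φ : Additive (Gamma0 N) →+ A),
        cohGen N A l φ (Additive.ofMul γ) = ∑ x, φ (Additive.ofMul (t x)) :=
  ⟨MulAction.toPerm (redMatrix l (γ : SL(2, ℤ))), cT h γ, fun x => cT_rel h γ x,
    fun A _ φ => by rw [cohGen_of_not_dvd N A l h]; rfl⟩

theorem cohGen_apply_of_dvd (l : Nat.Primes) (h : (l : ℕ) ∣ N) (γ : Gamma0 N) :
    ∃ (σ : Equiv.Perm (ZMod l)) (t : ZMod l → Gamma0 N),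
      (∀ x, ModularForm.heckeMatrix l x.val * mapGL ℝ (γ : SL(2, ℤ))
        = mapGL ℝ (t x : SL(2, ℤ)) * ModularForm.heckeMatrix l (σ x).val) ∧
      ∀ (A : Type) [AddCommGroup A] (φ : Additive (Gamma0 N) →+ A),
        cohGen N A l φ (Additive.ofMul γ) = ∑ x, φ (Additive.ofMul (t x)) :=
  ⟨sigU h γ, cU h γ, fun x => cU_rel h γ x,
    fun A _ φ => by rw [cohGen_of_dvd N A l h]; rfl⟩

end Gen

end Fermat.Agent.S16_helper49
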