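/-
T16 / LB-SH2 against the H1 hedge `S16_helper49.cohGen` (helper49):
`cohGen p (ZMod n) l (psi p) = eisensteinSystem p l • psi p`.
-/
import Fermat.Agent.S16_helper49.HeckeGen
import Fermat.Agent.S16.LB.ShimuraCoh

set_option autoImplicit false

open scoped MatrixGroups
open CongruenceSubgroup Matrix ModularCurve ModularCurve.Period Matrix.SpecialLinearGroup
open P2MW.S_ModularForm_heckeT_slash_eq_self_of_mem_Gamma0.ModularForm.HeckeSlashInvariance
open Fermat.Agent.S16.LB.SH

namespace Fermat.Agent.S16_helper49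

variable (p : ℕ) [Fact p.Prime]

/-- **SH2**: the Shimura class is an Eisenstein eigenclass for the cohomological Hecke operators. -/
theorem cohGen_psi (l : Nat.Primes) :
    cohGen p (ZMod (eisensteinNumerator p)) l (psi p) = eisensteinSystem p l • psi p := by
  refine psi_eigen_of_apply p (cohGen p (ZMod (eisensteinNumerator p))) ?_ ?_ l
  · intro l hl g
    obtain ⟨σ, t, hrel, happ⟩ := cohGen_apply_of_not_dvd p l hl g
    exact ⟨σ, t, σ.bijective, hrel, happ _ _⟩
  · intro l hl g
    obtain ⟨σ, t, hrel, happ⟩ := cohGen_apply_of_dvd p l hl g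
    exact ⟨σ, t, hrel, happ _ _⟩

end Fermat.Agent.S16_helper49
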