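/-
T16 / LB-INV HEDGE (helper49): compatibility of the Hecke coset sums with the involution
`jConjGamma0` (conjugation by `diag(1,-1)`), definition-independent form (board 1081).
Route: integer matrices only.
-/
import Fermat.Agent.S16.LB.ShimuraEigen
import Fermat.Prelude.Def_ModularCurve_PeriodHomPair

set_option autoImplicit false

open scoped MatrixGroups
open CongruenceSubgroup Matrix ModularCurve ModularCurve.Period Matrix.SpecialLinearGroup
open P2MW.S_ModularForm_heckeT_slash_eq_self_of_mem_Gamma0.ModularForm.HeckeSlashInvariance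
open Fermat.Agent.S16.LB.SH

namespace Fermat.Agent.S16_helper49.Invol

variable {N : ℕ}

/-- The integer matrix underlying an element of `Γ₀(N)`. -/
abbrev tm (g : Gamma0 N) : Matrix (Fin 2) (Fin 2) ℤ :=
  ((g : SL(2, ℤ)) : Matrix (Fin 2) (Fin 2) ℤ)

theorem tm_mul (g h : Gamma0 N) : tm (g * h) = tm g * tm h := by simp [tm]

theorem tm_one : tm (1 : Gamma0 N) = 1 := by simp [tm]

theorem tm_inv_mul (g : Gamma0 N) : tm g⁻¹ * tm g = 1 := by
  rw [← tm_mul, inv_mul_cancel, tm_one]

theorem tm_jConj (g : Gamma0 N) : tm (jConjGamma0 N g) = jConjMat (tm g) := rfl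

theorem tm_injective : Function.Injective (tm (N := N)) := fun g h e =>
  Subtype.ext (Subtype.ext e)

/-- The generic statement. -/
theorem sum_jConj_generic {X : Type*} [Fintype X] {A : Type*} [AddCommGroup A]
    (φ : Additive (Gamma0 N) →+ A)
    (R : X → Matrix (Fin 2) (Fin 2) ℤ) (neg : Equiv.Perm X) (D : X → Gamma0 N)
    (hD : ∀ x, jConjMat (R x) = tm (D x) * R (neg x))
    (huniq : ∀ (g : Gamma0 N) (y1 y2 : X), tm g * R y1 = R y2 → y1 = y2 ∧ g = 1)
    (γ : Gamma0 N) (σ σ' : Equiv.Perm X) (t t' : X → Gamma0 N)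
    (h : ∀ x, R x * tm γ = tm (t x) * R (σ x))
    (h' : ∀ x, R x * tm (jConjGamma0 N γ) = tm (t' x) * R (σ' x)) :
    ∑ x, φ (Additive.ofMul (jConjGamma0 N (t x))) = ∑ x, φ (Additive.ofMul (t' x)) := by
  have key : ∀ x, D x * t' (neg x) = jConjGamma0 N (t x) * D (σ x) := by
    intro x
    have e1 : jConjMat (R x) * jConjMat (tm γ) = jConjMat (tm (t x)) * jConjMat (R (σ x)) := by
      rw [← jConjMat_mul, ← jConjMat_mul, h x]
    rw [hD x, hD (σ x), ← tm_jConj, ← tm_jConj] at e1
    have e2 := h' (neg x)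
    rw [Matrix.mul_assoc, e2, ← Matrix.mul_assoc, ← Matrix.mul_assoc, ← tm_mul, ← tm_mul] at e1
    set M := jConjGamma0 N (t x) * D (σ x) with hM
    set M' := D x * t' (neg x) with hM'
    have e3 : tm (M⁻¹ * M') * R (σ' (neg x)) = R (neg (σ x)) := by
      rw [tm_mul, Matrix.mul_assoc, e1, ← Matrix.mul_assoc, tm_inv_mul, Matrix.one_mul]
    have e4 := (huniq _ _ _ e3).2
    have : M' = M := by
      have := congrArg (fun z => M * z) e4
      simpa using this
    exact this
  have hsum : ∀ x, φ (Additive.ofMul (jConjGamma0 N (t x)))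
      = φ (Additive.ofMul (D x)) + φ (Additive.ofMul (t' (neg x)))
        - φ (Additive.ofMul (D (σ x))) := by
    intro x
    have := congrArg (fun g => φ (Additive.ofMul g)) (key x)
    simp only [ofMul_mul, map_add] at this
    rw [this]; abel
  simp_rw [hsum]
  rw [Finset.sum_sub_distrib, Finset.sum_add_distrib,
    Equiv.sum_comp σ (fun x => φ (Additive.ofMul (D x))),
    Equiv.sum_comp neg (fun x => φ (Additive.ofMul (t' x)))]
  abel

/-! ### The correction elements -/

theorem Tinv_mem (N : ℕ) : (ModularGroup.T⁻¹ : SL(2, ℤ)) ∈ Gamma0 N := by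
  rw [Gamma0_mem, ModularGroup.coe_T_inv]
  simp

/-- `T⁻¹` as an element of `Γ₀(N)`. -/
def Tinv (N : ℕ) : Gamma0 N := ⟨ModularGroup.T⁻¹, Tinv_mem N⟩

theorem tm_Tinv : tm (Tinv N) = !![1, -1; 0, 1] := ModularGroup.coe_T_inv

/-- correction element `δ_j`. -/
def dlt (N : ℕ) {l : ℕ} (j : ZMod l) : Gamma0 N := if j = 0 then 1 else Tinv N

theorem jConjMat_rep {l : ℕ} [NeZero l] (j : ZMod l) :
    jConjMat !![(1 : ℤ), (j.val : ℤ); 0, (l : ℤ)]
      = tm (dlt N j) * !![(1 : ℤ), ((-j).val : ℤ); 0, (l : ℤ)] := by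
  unfold dlt
  by_cases hj : j = 0
  · subst hj
    rw [if_pos rfl, tm_one, Matrix.one_mul]
    ext a b; fin_cases a <;> fin_cases b <;> simp [jConjMat]
  · rw [if_neg hj, tm_Tinv, ZMod.neg_val, if_neg hj]
    have hle : j.val ≤ l := (ZMod.val_lt j).le
    ext a b
    fin_cases a <;> fin_cases b <;>
      simp [jConjMat, Matrix.mul_apply, Fin.sum_univ_two, hle, -ZMod.natCast_val] <;> ring

/-- uniqueness for the finite representatives. -/
theorem uniq_rep {l : ℕ} [NeZero l] (g : Gamma0 N) (j1 j2 : ZMod l)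
    (h : tm g * !![(1 : ℤ), (j1.val : ℤ); 0, (l : ℤ)] = !![(1 : ℤ), (j2.val : ℤ); 0, (l : ℤ)]) :
    j1 = j2 ∧ g = 1 := by
  have hl : (l : ℤ) ≠ 0 := by exact_mod_cast NeZero.ne l
  have hlpos : (0 : ℤ) < l := by exact_mod_cast Nat.pos_of_ne_zero (NeZero.ne l)
  have e00 := congrFun (congrFun h 0) 0
  have e01 := congrFun (congrFun h 0) 1
  have e10 := congrFun (congrFun h 1) 0
  have e11 := congrFun (congrFun h 1) 1
  simp [Matrix.mul_apply, Fin.sum_univ_two, -ZMod.natCast_val] at e00 e01 e10 e11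
  rw [e10, zero_mul, zero_add] at e11
  have g11 : tm g 1 1 = 1 := by
    have : (tm g 1 1 - 1) * (l : ℤ) = 0 := by linear_combination e11
    rcases mul_eq_zero.mp this with h0 | h0
    · linarith
    · exact absurd h0 hl
  rw [e00, one_mul] at e01
  have h1 : (j1.val : ℤ) < l := by exact_mod_cast ZMod.val_lt j1
  have h2 : (j2.val : ℤ) < l := by exact_mod_cast ZMod.val_lt j2
  have h1' : (0 : ℤ) ≤ j1.val := by positivity
  have h2' : (0 : ℤ) ≤ j2.val := by positivity
  have g01 : tm g 0 1 = 0 := by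
    by_contra hne
    rcases lt_or_gt_of_ne hne with hlt | hgt
    · have : tm g 0 1 ≤ -1 := by omega
      nlinarith
    · have : 1 ≤ tm g 0 1 := by omega
      nlinarith
  rw [g01, zero_mul, add_zero] at e01
  refine ⟨ZMod.val_injective l (by exact_mod_cast e01), ?_⟩
  apply tm_injective
  rw [tm_one]
  ext a b; fin_cases a <;> fin_cases b <;> simp [e00, g01, e10, g11]

/-- **LB-INV, `U`-case** (board 1081, verbatim). -/
theorem sum_jConj_heckeMatrix {N : ℕ} {l : ℕ} [NeZero l] {A : Type*} [AddCommGroup A]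
    (φ : Additive (Gamma0 N) →+ A) (γ : Gamma0 N) (σ σ' : Equiv.Perm (ZMod l))
    (t t' : ZMod l → Gamma0 N)
    (h : ∀ x : ZMod l, ModularForm.heckeMatrix l x.val * mapGL ℝ (γ : SL(2, ℤ))
      = mapGL ℝ (t x : SL(2, ℤ)) * ModularForm.heckeMatrix l (σ x).val)
    (h' : ∀ x : ZMod l, ModularForm.heckeMatrix l x.val
        * mapGL ℝ ((jConjGamma0 N γ : Gamma0 N) : SL(2, ℤ))
      = mapGL ℝ (t' x : SL(2, ℤ)) * ModularForm.heckeMatrix l (σ' x).val) :
    ∑ x, φ (Additive.ofMul (jConjGamma0 N (t x))) = ∑ x, φ (Additive.ofMul (t' x)) := by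
  have hl : l ≠ 0 := NeZero.ne l
  refine sum_jConj_generic φ (fun j : ZMod l => !![(1 : ℤ), (j.val : ℤ); 0, (l : ℤ)])
    (Equiv.neg (ZMod l)) (fun j => dlt N j) (fun j => jConjMat_rep j)
    (fun g y1 y2 e => uniq_rep g y1 y2 e) γ σ σ' t t' ?_ ?_
  · intro x
    exact intRel_of_GL (coe_heckeMatrix hl _) (coe_heckeMatrix hl _) (h x)
  · intro x
    exact intRel_of_GL (coe_heckeMatrix hl _) (coe_heckeMatrix hl _) (h' x)

/-! ### The `T`-case: representatives indexed by `P¹(F_l)` -/

open OnePoint in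
/-- negation on `P¹(F_l)`. -/
def negP (l : ℕ) : Equiv.Perm (OnePoint (ZMod l)) :=
  Function.Involutive.toPerm
    (fun x => x.elim ∞ (fun j => ((-j : ZMod l) : OnePoint (ZMod l))))
    (by
      intro x
      induction x using OnePoint.rec with
      | infty => rfl
      | coe j => simp)

open OnePoint in
theorem negP_infty (l : ℕ) : negP l ∞ = ∞ := rfl

theorem negP_coe (l : ℕ) (j : ZMod l) : negP l (j : OnePoint (ZMod l)) = ((-j : ZMod l) :
    OnePoint (ZMod l)) := rfl

/-- correction elements on `P¹(F_l)`. -/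
def dltP (N : ℕ) {l : ℕ} (x : OnePoint (ZMod l)) : Gamma0 N := x.elim 1 (fun j => dlt N j)

open OnePoint in
theorem repZ_infty (l : ℕ) : repZ l ∞ = !![(l : ℤ), 0; 0, (1 : ℤ)] := rfl

theorem repZ_coe (l : ℕ) (j : ZMod l) :
    repZ l (j : OnePoint (ZMod l)) = !![(1 : ℤ), (j.val : ℤ); 0, (l : ℤ)] := rfl

theorem jConjMat_repZ {l : ℕ} [NeZero l] (x : OnePoint (ZMod l)) :
    jConjMat (repZ l x) = tm (dltP N x) * repZ l (negP l x) := by
  induction x using OnePoint.rec with
  | infty =>
    rw [negP_infty, repZ_infty]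
    show _ = tm (1 : Gamma0 N) * _
    rw [tm_one, Matrix.one_mul]
    ext a b; fin_cases a <;> fin_cases b <;> simp [jConjMat]
  | coe j =>
    rw [negP_coe, repZ_coe, repZ_coe]
    exact jConjMat_rep j

open OnePoint in
theorem uniq_repZ {l : ℕ} [Fact l.Prime] (g : Gamma0 N) (y1 y2 : OnePoint (ZMod l))
    (h : tm g * repZ l y1 = repZ l y2) : y1 = y2 ∧ g = 1 := by
  have hl2 : (2 : ℤ) ≤ l := by exact_mod_cast (Fact.out : l.Prime).two_le
  have hl : (l : ℤ) ≠ 0 := by omega
  have hnot : ∀ z : ℤ, z * (l : ℤ) ≠ 1 := by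
    intro z hz
    have hdvd : (l : ℤ) ∣ 1 := ⟨z, by linarith⟩
    have := Int.le_of_dvd one_pos hdvd
    omega
  have hdet : tm g 0 0 * tm g 1 1 - tm g 0 1 * tm g 1 0 = 1 := by
    have := (g : SL(2, ℤ)).2
    rw [Matrix.det_fin_two] at this
    exact this
  induction y1 using OnePoint.rec with
  | infty =>
    induction y2 using OnePoint.rec with
    | infty =>
      refine ⟨rfl, ?_⟩
      rw [repZ_infty] at h
      have e00 : tm g 0 0 * (l : ℤ) = l := by
        have := congrFun (congrFun h 0) 0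
        simpa [Matrix.mul_apply, Fin.sum_univ_two] using this
      have e01 : tm g 0 1 = 0 := by
        have := congrFun (congrFun h 0) 1
        simpa [Matrix.mul_apply, Fin.sum_univ_two] using this
      have e10 : tm g 1 0 * (l : ℤ) = 0 := by
        have := congrFun (congrFun h 1) 0
        simpa [Matrix.mul_apply, Fin.sum_univ_two] using this
      have e11 : tm g 1 1 = 1 := by
        have := congrFun (congrFun h 1) 1
        simpa [Matrix.mul_apply, Fin.sum_univ_two] using this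
      have g00 : tm g 0 0 = 1 := by
        have : (tm g 0 0 - 1) * (l : ℤ) = 0 := by linear_combination e00
        rcases mul_eq_zero.mp this with h0 | h0
        · linarith
        · exact absurd h0 hl
      have g10 : tm g 1 0 = 0 := by
        rcases mul_eq_zero.mp e10 with h0 | h0
        · exact h0
        · exact absurd h0 hl
      apply tm_injective
      rw [tm_one]
      ext a b; fin_cases a <;> fin_cases b <;> simp [g00, e01, g10, e11]
    | coe j2 =>
      exfalso
      rw [repZ_infty, repZ_coe] at h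
      have e00 := congrFun (congrFun h 0) 0
      simp [Matrix.mul_apply, Fin.sum_univ_two] at e00
      exact hnot _ e00
  | coe j1 =>
    induction y2 using OnePoint.rec with
    | infty =>
      exfalso
      rw [repZ_infty, repZ_coe] at h
      have e00 := congrFun (congrFun h 0) 0
      have e10 := congrFun (congrFun h 1) 0
      simp [Matrix.mul_apply, Fin.sum_univ_two] at e00 e10
      rw [e00, e10, mul_zero, sub_zero] at hdet
      exact hnot (tm g 1 1) (by linarith)
    | coe j2 =>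
      rw [repZ_coe, repZ_coe] at h
      obtain ⟨h1, h2⟩ := uniq_rep g j1 j2 h
      exact ⟨by rw [h1], h2⟩

/-- **LB-INV, `T`-case** (board 1081, verbatim). -/
theorem sum_jConj_heckeRep {N : ℕ} {l : ℕ} [Fact l.Prime] {A : Type*} [AddCommGroup A]
    (φ : Additive (Gamma0 N) →+ A) (γ : Gamma0 N) (σ σ' : Equiv.Perm (OnePoint (ZMod l)))
    (t t' : OnePoint (ZMod l) → Gamma0 N)
    (h : ∀ x, heckeRep l x * mapGL ℝ (γ : SL(2, ℤ))
      = mapGL ℝ (t x : SL(2, ℤ)) * heckeRep l (σ x))
    (h' : ∀ x, heckeRep l x * mapGL ℝ ((jConjGamma0 N γ : Gamma0 N) : SL(2, ℤ))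
      = mapGL ℝ (t' x : SL(2, ℤ)) * heckeRep l (σ' x)) :
    ∑ x, φ (Additive.ofMul (jConjGamma0 N (t x))) = ∑ x, φ (Additive.ofMul (t' x)) := by
  have hl : l ≠ 0 := (Fact.out : l.Prime).ne_zero
  refine sum_jConj_generic φ (repZ l) (negP l) (fun x => dltP N x) (fun x => jConjMat_repZ x)
    (fun g y1 y2 e => uniq_repZ g y1 y2 e) γ σ σ' t t' ?_ ?_
  · intro x
    exact intRel_of_GL (coe_heckeRep hl _) (coe_heckeRep hl _) (h x)
  · intro x
    exact intRel_of_GL (coe_heckeRep hl _) (coe_heckeRep hl _) (h' x)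

end Fermat.Agent.S16_helper49.Invol
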